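/-
S56 / FLAT / RED (architect helper15): WIP STUB of `Fermat/Agent/S56/Flat/Red/Bridge.lean` (task RED-T2).
The owner proves these statements VERBATIM (same names, namespace `Fermat.Agent.S56.Flat.Red`) in the
NEW file `Fermat/Agent/S56/Flat/Red/Bridge.lean` and, IN THE SAME COMMIT, replaces THIS file by the single
line `import Fermat.Agent.S56.Flat.Red.Bridge`.  While a dependency is not landed import its stub
(`Red/WIP/<Name>.lean`) and land your proof as `Red/WIP/BridgeProof.lean`.
-/
import Fermat.Agent.S56.Flat.Red.Defs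

set_option autoImplicit false

namespace Fermat.Agent.S56.Flat.Red

open Fermat.Agent.S55
open Fermat.Agent.S53 (M2)
open Fermat.Agent.S56.Flat.Irr (kb rs)
open Fermat.Agent.Lib.InertiaField (K0)

variable {k : Type} [Field k] {s : GQ →* M2 k} {pp : Nat.Primes}

/-! ## RED-T2: from local cocycles (`FC.LCoc pp s`, functions on `Gv pp`) to functions on `GQ`

`FC.cm_eq_of_ιv_eq`, `FC.cm_mul`, `FC.cm_trace`, `FC.cm_level` (Flat/FC/Cm.lean); the range of `ιv pp` is the
decomposition group (`S55.range_ιv` / `ιv_mem_Dq`, S55/Loc/Field/*). -/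

open Classical in
/-- The function on `GQ` attached to a local cocycle (`0` outside the decomposition group). -/
noncomputable def fn (c : FC.LCoc pp s) : GQ → M2 k :=
  fun g => if h : ∃ x : Gv pp, ιv pp x = g then FC.cm c h.choose else 0

theorem fn_ιv (c : FC.LCoc pp s) (x : Gv pp) : fn c (ιv pp x) = FC.cm c x := sorry

theorem dCoc_fn (c : FC.LCoc pp s) : DCoc (plc pp) s (fn c) := sorry

theorem fl_fn (c : FC.LCoc pp s) (hc : FC.IsFlatCoc c) : Fl (plc pp) s (fn c) := sorry

theorem finLev_of_resHyp {p : ℕ} (hs : ResHyp p s) : FinLev s := sorry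

/-- the determinant on inertia -/
theorem det_eq_om {p : ℕ} [Fact p.Prime] [Algebra (ZMod p) k] {ζ : Qb} (hζ : IsPrimitiveRoot ζ p)
    (hs : ResHyp p s) (σ : GQ) : (s σ).det = algebraMap (ZMod p) k (om p ζ σ) := sorry

theorem exists_std (hp2 : (pp : ℕ) ≠ 2) : ∃ ζ : Qb, Std (plc pp) (pp : ℕ) ζ := sorry

theorem exists_frob_plc : ∃ φ : GQ, (plc pp).IsFrobeniusAt φ (pp : ℕ) := sorry

theorem line_of_isRed (hred : FC.IsRed pp s) :
    ∃ v : Fin 2 → k, v ≠ 0 ∧ ∀ g ∈ Dec (plc pp), ∃ a : k, (s g).mulVec v = a • v := sorry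

end Fermat.Agent.S56.Flat.Red
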