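/-
S56 / FLAT / RED (architect helper15): WIP STUB of `Fermat/Agent/S56/Flat/Red/Main.lean` (task RED-T3).
The owner proves these statements VERBATIM (same names, namespace `Fermat.Agent.S56.Flat.Red`) in the
NEW file `Fermat/Agent/S56/Flat/Red/Main.lean` and, IN THE SAME COMMIT, replaces THIS file by the single
line `import Fermat.Agent.S56.Flat.Red.Main`.  While a dependency is not landed import its stub
(`Red/WIP/<Name>.lean`) and land your proof as `Red/WIP/MainProof.lean`.
-/
import Fermat.Agent.S56.Flat.Red.Defs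

set_option autoImplicit false

namespace Fermat.Agent.S56.Flat.Red

open Fermat.Agent.S55
open Fermat.Agent.S53 (M2)
open Fermat.Agent.S56.Flat.Irr (kb rs)
open Fermat.Agent.Lib.InertiaField (K0)

variable {k : Type} [Field k] [Finite k] {s : GQ →* M2 k} {pp : Nat.Primes}

/-! ## RED-T3: THE EXPORT OF THE BLOCK (= `FC.countGoal_red` of Flat/FC/WIP/Cases.lean)

`letI := ZMod.algebra k pp`, `Fact pp.Prime`.  If there is no flat local cocycle: `T = PUnit`.  Otherwise let
`c₀` be one: RED-T2 (`fl_fn`, `line_of_isRed`, `det_eq_om`, `exists_std`, `exists_frob_plc`), RED-A3 `exists_line`,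
RED-C1 `exists_conj_UT` give `P` with `UT (conjHom P s)`.  RED-T1 `countCore` for `conjHom P s` gives `(T, Φ')`;
`Φ c := Φ' ⟨P⁻¹ (fn c) P, DCoc.conj, Fl.conj⟩` (RED-C2).  `Φ c = Φ c'` ==> `P⁻¹ (fn c σ - fn c' σ) P = ∂m (σ)` for
`conjHom P s` ==> (`cob_conj_back`, `trace_conj_back`) `UnrEq c c'` with `P m P⁻¹` (`fn_ιv`; `x ∈ inertiaLoc pp`
means `ιv pp x ∈ Iner (plc pp)`). -/

theorem countGoal_red [CharP k (pp : ℕ)] (hp2 : (pp : ℕ) ≠ 2) (hs : ResHyp (pp : ℕ) s)
    (hred : FC.IsRed pp s) : FC.CountGoal pp s := sorry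

end Fermat.Agent.S56.Flat.Red
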