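/-
S56 / FLAT / RED (architect helper15; proof helper80): task RED-T3, THE EXPORT OF THE BLOCK.
PROOF of `countGoal_red` against the stubs `Red/WIP/{Bridge,Line2,ConjUT,Conj,Core}.lean`.
FINAL FORM: move this file to `Fermat/Agent/S56/Flat/Red/Main.lean`, replacing the five imports by
`Red/{Bridge,Line2,ConjUT,Conj,Core}`.
-/
import Fermat.Agent.S56.Flat.Red.WIP.Bridge
import Fermat.Agent.S56.Flat.Red.WIP.Line2
import Fermat.Agent.S56.Flat.Red.WIP.ConjUT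
import Fermat.Agent.S56.Flat.Red.WIP.Conj
import Fermat.Agent.S56.Flat.Red.WIP.Core

set_option autoImplicit false

namespace Fermat.Agent.S56.Flat.Red

open Fermat.Agent.S55
open Fermat.Agent.S53 (M2)
open Fermat.Agent.S56.Flat.Irr (kb rs)
open Fermat.Agent.Lib.InertiaField (K0)

variable {k : Type} [Field k] [Finite k] {s : GQ →* M2 k} {pp : Nat.Primes}

/-! ## RED-T3: THE EXPORT OF THE BLOCK (= `FC.countGoal_red` of Flat/FC/WIP/Cases.lean)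

`letI := ZMod.algebra k pp`, `Fact pp.Prime`.  If there is no flat local cocycle: `T = PUnit`.  Otherwise let
`c₀` be one: RED-T2 (`fl_fn`, `line_of_isRed`, `det_eq_om`, `exists_std`, `exists_frob_plc`), RED-A3 `exists_line`,
RED-C1 `exists_conj_UT` give `P` with `UT (conjHom P s)`.  RED-T1 `countCore` for `conjHom P s` gives `(T, Φ')`;
`Φ c := Φ' ⟨P⁻¹ (fn c) P, DCoc.conj, Fl.conj⟩` (RED-C2).  `Φ c = Φ c'` ==> `P⁻¹ (fn c σ - fn c' σ) P = ∂m (σ)` for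
`conjHom P s` ==> (`cob_conj_back`, `trace_conj_back`) `UnrEq c c'` with `P m P⁻¹` (`fn_ιv`; `x ∈ inertiaLoc pp`
means `ιv pp x ∈ Iner (plc pp)`). -/

theorem countGoal_red [CharP k (pp : ℕ)] (hp2 : (pp : ℕ) ≠ 2) (hs : ResHyp (pp : ℕ) s)
    (hred : FC.IsRed pp s) : FC.CountGoal pp s := by
  classical
  letI : Algebra (ZMod (pp : ℕ)) k := ZMod.algebra k (pp : ℕ)
  haveI : Fact (pp : ℕ).Prime := ⟨pp.2⟩
  by_cases hex : ∃ c₀ : FC.LCoc pp s, FC.IsFlatCoc c₀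
  swap
  · refine ⟨PUnit, inferInstance, fun _ => PUnit.unit, ?_, fun c => absurd ⟨c.1, c.2⟩ hex⟩
    rw [Nat.card_unique]
    exact Nat.card_pos
  obtain ⟨c₀, hc₀⟩ := hex
  obtain ⟨ζ, hstd⟩ := exists_std (pp := pp) hp2
  obtain ⟨φ, hφ⟩ := exists_frob_plc (pp := pp)
  have hdet : ∀ σ ∈ Iner (plc pp),
      (s σ).det = algebraMap (ZMod (pp : ℕ)) k (om (pp : ℕ) ζ σ) :=
    fun σ _ => det_eq_om hstd.prim hs σ
  obtain ⟨u, -, hW⟩ := fl_fn c₀ hc₀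
  obtain ⟨v, hv, hst, hunr⟩ := exists_line hstd hφ hdet u hW (line_of_isRed hred)
  obtain ⟨P, hUT⟩ := exists_conj_UT hdet v hv hst hunr
  obtain ⟨T, hT, Φ', hcard, hΦ'⟩ := countCore hstd hφ hUT ((finLev_of_resHyp hs).conj P)
  refine ⟨T, hT, fun c => Φ' ⟨fun g => (↑P⁻¹ : M2 k) * fn c.1 g * (P : M2 k),
    (dCoc_fn c.1).conj P, (fl_fn c.1 c.2).conj P⟩, hcard, ?_⟩
  intro c c' hcc
  obtain ⟨m, hm, hrel⟩ := hΦ' _ _ hcc
  refine ⟨(P : M2 k) * m * (↑P⁻¹ : M2 k), by rw [trace_conj_back, hm], fun x hx => ?_⟩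
  have hx' : ιv pp x ∈ Iner (plc pp) := hx
  have h1 := hrel (ιv pp x) hx'
  rw [← fn_ιv, ← fn_ιv]
  apply cob_conj_back P
  rw [mul_sub, sub_mul]
  exact h1

end Fermat.Agent.S56.Flat.Red
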